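import Fermat.Agent.S15.F.Abs.Defs

/-! # S15 / F / Abs : task S15/F-Abs-B1 (proof sketch: header of `Defs.lean`) -/

set_option autoImplicit false

namespace Fermat.Agent.S15.F.Abs

variable {J : Type*} [AddCommGroup J]

/-- (B1). -/
theorem relIndex_KK_le {Γ : Type*} [Group Γ] [DistribMulAction Γ J] (e : ℕ) (E : J →+ J)
    (hE : ∀ (σ : Γ) (x : J), E (σ • x) = σ • E x)
    (S : Set (Γ → J)) (hS : S.Finite)
    (hmem : ∀ y' : J, (∀ σ : Γ, σ • (e • y') = e • y') → (fun σ : Γ => E (σ • y' - y')) ∈ S) :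
    (KK (FixedPoints.addSubgroup Γ J) e E).relIndex (M2 (FixedPoints.addSubgroup Γ J) e) ≠ 0 ∧
      (KK (FixedPoints.addSubgroup Γ J) e E).relIndex (M2 (FixedPoints.addSubgroup Γ J) e)
        ≤ S.ncard := by
  have hSfin : Finite S := hS
  set M : AddSubgroup J := FixedPoints.addSubgroup Γ J with hM
  have hmemM : ∀ x : J, x ∈ M ↔ ∀ σ : Γ, σ • x = x := fun x => Iff.rfl
  let f : M2 M e → S := fun y => ⟨fun σ : Γ => E (σ • (y : J) - y), hmem y ((hmemM _).mp y.2)⟩
  have hf : ∀ y₁ y₂ : M2 M e, f y₁ = f y₂ → -y₁ + y₂ ∈ (KK M e E).addSubgroupOf (M2 M e) := by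
    intro y₁ y₂ h
    rw [AddSubgroup.mem_addSubgroupOf, mem_KK]
    refine ⟨(-y₁ + y₂).2, ?_⟩
    rw [hmemM]
    intro σ
    have h1 : E (σ • (y₁ : J) - y₁) = E (σ • (y₂ : J) - y₂) :=
      congrFun (congrArg Subtype.val h) σ
    rw [map_sub, map_sub, hE, hE] at h1
    simp only [AddSubgroup.coe_add, AddSubgroup.coe_neg, map_add, map_neg, smul_add, smul_neg]
    have h2 : σ • E (y₂ : J) - σ • E (y₁ : J) = E (y₂ : J) - E (y₁ : J) := by
      have := sub_eq_sub_iff_add_eq_add.mp h1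
      rw [sub_eq_sub_iff_add_eq_add, ← this, add_comm]
    rw [neg_add_eq_sub, neg_add_eq_sub, h2]
  let g : (M2 M e ⧸ (KK M e E).addSubgroupOf (M2 M e)) → S := fun q => f q.out
  have hg : Function.Injective g := by
    intro q₁ q₂ h
    have h1 := hf _ _ h
    rw [← QuotientAddGroup.eq, QuotientAddGroup.out_eq', QuotientAddGroup.out_eq'] at h1
    exact h1
  have hfin : Finite (M2 M e ⧸ (KK M e E).addSubgroupOf (M2 M e)) := Finite.of_injective g hg
  constructor
  · exact AddSubgroup.index_ne_zero_of_finite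
  · have h1 := Nat.card_le_card_of_injective g hg
    rwa [Nat.card_coe_set_eq] at h1

end Fermat.Agent.S15.F.Abs
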