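import Fermat.Agent.S15.F.Abs.Defs

/-! # S15 / F / Abs : task S15/F-Abs-B2 (proof sketch: header of `Defs.lean`) -/

set_option autoImplicit false

namespace Fermat.Agent.S15.F.Abs

variable {J : Type*} [AddCommGroup J]

/-- (B2). -/
theorem relIndex_ME_mul_le (M : AddSubgroup J) (e : ℕ) (E : J →+ J)
    (hdiv : ∀ y : J, ∃ y' : J, e • y' = y) (hfin : Finite (GG e E))
    (h0 : (KK M e E).relIndex (M2 M e) ≠ 0) :
    (ME M e E).relIndex M ≠ 0 ∧
      (ME M e E).relIndex M * Nat.card (GG e E)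
        ≤ (KK M e E).relIndex (M2 M e) * Nat.card (GG e E ⊓ M : AddSubgroup J) := by
  set f : J →+ J := nsmulAddMonoidHom e with hf
  have hfs : Function.Surjective f := fun y => hdiv y
  set LL : AddSubgroup J := (ME M e E).comap f with hLL
  have hKL : KK M e E ≤ LL := by
    intro y hy
    rw [mem_KK] at hy
    show e • y ∈ ME M e E
    rw [mem_ME]
    exact ⟨hy.1, E y, hy.2, (map_nsmul E e y).symm⟩
  have hLM : LL ≤ M2 M e := by
    intro y hy
    have h1 : e • y ∈ ME M e E := hy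
    rw [mem_ME] at h1
    exact h1.1
  have hGL : GG e E ≤ LL := by
    intro x hx
    rw [mem_GG] at hx
    show e • x ∈ ME M e E
    rw [mem_ME, hx.1]
    exact ⟨zero_mem _, 0, zero_mem _, by rw [smul_zero, map_zero]⟩
  have hmul := AddSubgroup.relIndex_mul_relIndex (KK M e E) LL (M2 M e) hKL hLM
  have hKL0 : (KK M e E).relIndex LL ≠ 0 := by
    intro h
    rw [h, zero_mul] at hmul
    exact h0 hmul.symm
  have hLM0 : LL.relIndex (M2 M e) ≠ 0 := by
    intro h
    rw [h, mul_zero] at hmul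
    exact h0 hmul.symm
  have hLMeq : LL.relIndex (M2 M e) = (ME M e E).relIndex M := by
    rw [hLL, AddSubgroup.relIndex_comap]
    congr 1
    exact AddSubgroup.map_comap_eq_self_of_surjective hfs M
  have hle : (KK M e E).relIndex (GG e E) ≤ (KK M e E).relIndex LL :=
    AddSubgroup.relIndex_le_of_le_right hGL hKL0
  have hinf : KK M e E ⊓ GG e E = GG e E ⊓ M := by
    ext x
    rw [AddSubgroup.mem_inf, AddSubgroup.mem_inf, mem_KK, mem_GG]
    constructor
    · rintro ⟨⟨-, h2⟩, h3⟩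
      exact ⟨h3, by rw [← h3.2]; exact h2⟩
    · rintro ⟨h3, h4⟩
      exact ⟨⟨by rw [h3.1]; exact zero_mem _, by rw [h3.2]; exact h4⟩, h3⟩
  have hrel : (KK M e E).relIndex (GG e E) = (GG e E ⊓ M).relIndex (GG e E) := by
    rw [← hinf, AddSubgroup.inf_relIndex_right]
  have hcard := AddSubgroup.relIndex_mul_relIndex ⊥ (GG e E ⊓ M) (GG e E) bot_le inf_le_left
  rw [AddSubgroup.relIndex_bot_left, AddSubgroup.relIndex_bot_left] at hcard
  refine ⟨by rw [← hLMeq]; exact hLM0, ?_⟩
  rw [← hLMeq, ← hmul, ← hcard]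
  calc LL.relIndex (M2 M e) *
        (Nat.card (GG e E ⊓ M : AddSubgroup J) * (GG e E ⊓ M).relIndex (GG e E))
      = (GG e E ⊓ M).relIndex (GG e E) * LL.relIndex (M2 M e) *
          Nat.card (GG e E ⊓ M : AddSubgroup J) := by ring
    _ ≤ (KK M e E).relIndex LL * LL.relIndex (M2 M e) *
          Nat.card (GG e E ⊓ M : AddSubgroup J) := by
        rw [← hrel]
        exact Nat.mul_le_mul_right _ (Nat.mul_le_mul_right _ hle)

end Fermat.Agent.S15.F.Abs
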