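import Fermat.Agent.S15.F.Abs.Defs

/-! # S15 / F / Abs : task S15/F-Abs-C1 (proof sketch: header of `Defs.lean`) -/

set_option autoImplicit false

namespace Fermat.Agent.S15.F.Abs

variable {J : Type*} [AddCommGroup J]

/-- (C1) the stable image. -/
theorem exists_stable (X : AddSubgroup J) (hX : Finite X) (E : J →+ J) (hEX : ∀ x ∈ X, E x ∈ X)
    (e : ℕ) :
    ∃ B : AddSubgroup J, B ≤ X ∧ (∀ x ∈ X, E x = x → x ∈ B) ∧
      (∀ x ∈ B, ∀ w ∈ X, E x = e • w → ∃ b ∈ B, x = e • b) := by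
  classical
  let E' : AddMonoid.End J := E
  have hE' : ∀ x, E' x = E x := fun _ => rfl
  let Bn : ℕ → AddSubgroup J := fun n => X.map (E' ^ n : AddMonoid.End J)
  have hXn : ∀ n, ∀ x ∈ X, (E' ^ n) x ∈ X := by
    intro n
    induction n with
    | zero => intro x hx; simpa using hx
    | succ n ih =>
      intro x hx
      rw [pow_succ, AddMonoid.End.coe_mul, Function.comp_apply]
      exact ih _ (hEX x hx)
  have hBX : ∀ n, Bn n ≤ X := by
    rintro n _ ⟨x, hx, rfl⟩
    exact hXn n x hx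
  have hanti : ∀ n, Bn (n + 1) ≤ Bn n := by
    rintro n _ ⟨x, hx, rfl⟩
    refine ⟨E x, hEX x hx, ?_⟩
    show (E' ^ n) (E' x) = (E' ^ (n + 1)) x
    rw [pow_succ, AddMonoid.End.coe_mul, Function.comp_apply]
  have hfin : ∀ n, Finite (Bn n) := fun n =>
    Finite.of_injective (AddSubgroup.inclusion (hBX n)) (AddSubgroup.inclusion_injective (hBX n))
  have hcard : ∀ n, Nat.card (Bn (n + 1)) ≤ Nat.card (Bn n) := fun n =>
    Nat.card_le_card_of_injective (AddSubgroup.inclusion (hanti n))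
      (AddSubgroup.inclusion_injective (hanti n))
  obtain ⟨n, hn⟩ : ∃ n, Nat.card (Bn (n + 1)) = Nat.card (Bn n) := by
    by_contra hcon
    push Not at hcon
    have hlt : ∀ n, Nat.card (Bn n) + n ≤ Nat.card (Bn 0) := by
      intro n
      induction n with
      | zero => simp
      | succ n ih =>
        have := lt_of_le_of_ne (hcard n) (hcon n)
        omega
    have := hlt (Nat.card (Bn 0) + 1)
    omega
  have heq : Bn (n + 1) = Bn n := AddSubgroup.eq_of_le_of_card_ge (hanti n) hn.ge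
  have hmaps : ∀ b ∈ Bn n, E b ∈ Bn n := by
    rintro _ ⟨x, hx, rfl⟩
    rw [← heq]
    refine ⟨x, hx, ?_⟩
    show (E' ^ (n + 1)) x = E' ((E' ^ n) x)
    rw [pow_succ', AddMonoid.End.coe_mul, Function.comp_apply]
  have hsurj : ∀ b ∈ Bn n, ∃ b' ∈ Bn n, E b' = b := by
    intro b hb
    rw [← heq] at hb
    obtain ⟨x, hx, rfl⟩ := hb
    refine ⟨(E' ^ n) x, ⟨x, hx, rfl⟩, ?_⟩
    show E' ((E' ^ n) x) = (E' ^ (n + 1)) x
    rw [pow_succ', AddMonoid.End.coe_mul, Function.comp_apply]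
  let F : Bn n → Bn n := fun b => ⟨E b, hmaps b b.2⟩
  have hFs : Function.Surjective F := by
    rintro ⟨b, hb⟩
    obtain ⟨b', hb', h⟩ := hsurj b hb
    exact ⟨⟨b', hb'⟩, Subtype.ext h⟩
  have hFi : Function.Injective F := Finite.injective_iff_surjective.2 hFs
  have hinj : ∀ b ∈ Bn n, ∀ b' ∈ Bn n, E b = E b' → b = b' := by
    intro b hb b' hb' h
    have := @hFi ⟨b, hb⟩ ⟨b', hb'⟩ (Subtype.ext h)
    exact congrArg Subtype.val this
  have hmapsm : ∀ m, ∀ b ∈ Bn n, (E' ^ m) b ∈ Bn n := by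
    intro m
    induction m with
    | zero => intro b hb; simpa using hb
    | succ m ih =>
      intro b hb
      rw [pow_succ', AddMonoid.End.coe_mul, Function.comp_apply]
      exact hmaps _ (ih b hb)
  have key : ∀ m, ∀ x ∈ Bn n, ∀ w ∈ Bn n, (E' ^ m) x = e • w → ∃ b ∈ Bn n, x = e • b := by
    intro m
    induction m with
    | zero =>
      intro x _ w hw h
      exact ⟨w, hw, by simpa using h⟩
    | succ m ih =>
      intro x hx w hw h
      obtain ⟨w', hw', rfl⟩ := hsurj w hw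
      rw [pow_succ', AddMonoid.End.coe_mul, Function.comp_apply, hE', ← map_nsmul] at h
      exact ih x hx w' hw' (hinj _ (hmapsm m x hx) _ ((Bn n).nsmul_mem hw' e) h)
  refine ⟨Bn n, hBX n, ?_, ?_⟩
  · intro x hx hfix
    refine ⟨x, hx, ?_⟩
    have : ∀ m, (E' ^ m) x = x := by
      intro m
      induction m with
      | zero => simp
      | succ m ih => rw [pow_succ, AddMonoid.End.coe_mul, Function.comp_apply, hE', hfix, ih]
    exact this n
  · intro x hx w hw h
    refine key (n + 1) x hx ((E' ^ n) w) ⟨w, hw, rfl⟩ ?_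
    rw [pow_succ, AddMonoid.End.coe_mul, Function.comp_apply, hE', h, map_nsmul]

end Fermat.Agent.S15.F.Abs
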