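import Fermat.Agent.S15.F.Abs.C1

/-! # S15 / F / Abs : task S15/F-Abs-C2 (proof sketch: header of `Defs.lean`) -/

set_option autoImplicit false

namespace Fermat.Agent.S15.F.Abs

variable {J : Type*} [AddCommGroup J]

/-- a torsion subgroup of a finitely generated abelian group is finite. -/
theorem C2_finite_tors (M : AddSubgroup J) (hfg : AddGroup.FG M) (X : AddSubgroup J) (hXM : X ≤ M)
    (hX : ∀ x ∈ X, ∃ n : ℕ, 0 < n ∧ n • x = 0) : Finite X := by
  have h0 : Module.Finite ℤ (AddSubgroup.toIntSubmodule M) :=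
    Module.Finite.iff_addGroup_fg.mpr hfg
  have h1 : (AddSubgroup.toIntSubmodule M).FG := Module.Finite.iff_fg.1 h0
  have h2 : (AddSubgroup.toIntSubmodule X).FG := Submodule.FG.of_le h1 hXM
  have h3 : Module.Finite ℤ (AddSubgroup.toIntSubmodule X) := Module.Finite.iff_fg.2 h2
  refine Module.finite_of_fg_torsion (AddSubgroup.toIntSubmodule X) ?_
  intro x
  obtain ⟨n, hn, hnx⟩ := hX x.1 x.2
  refine ⟨⟨(n : ℤ), mem_nonZeroDivisors_of_ne_zero (by exact_mod_cast hn.ne')⟩, ?_⟩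
  apply Subtype.ext
  show (n : ℤ) • (x : J) = 0
  rw [natCast_zsmul, hnx]

/-- in a finite abelian group `#B[e] = [B : e B]`. -/
theorem C2_card_ker_eq_index (B : Type*) [AddCommGroup B] [Finite B] (e : ℕ) :
    Nat.card (nsmulAddMonoidHom e : B →+ B).ker = (nsmulAddMonoidHom e : B →+ B).range.index := by
  have h1 := AddSubgroup.card_mul_index (nsmulAddMonoidHom e : B →+ B).ker
  have h2 := AddSubgroup.card_mul_index (nsmulAddMonoidHom e : B →+ B).range
  rw [AddSubgroup.index_ker] at h1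
  have h3 : 0 < Nat.card (nsmulAddMonoidHom e : B →+ B).range := Nat.card_pos
  have h4 : Nat.card (nsmulAddMonoidHom e : B →+ B).range *
      Nat.card (nsmulAddMonoidHom e : B →+ B).ker =
      Nat.card (nsmulAddMonoidHom e : B →+ B).range *
      (nsmulAddMonoidHom e : B →+ B).range.index := by
    rw [h2, mul_comm, h1]
  exact Nat.eq_of_mul_eq_mul_left h3 h4

/-- (C2). -/
theorem map_mem_of_relIndex_le (M : AddSubgroup J) (hfg : AddGroup.FG M) (e : ℕ) (he : 0 < e)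
    (E : J →+ J) (hEM : ∀ m ∈ M, E m ∈ M) (h0 : (ME M e E).relIndex M ≠ 0)
    (h : (ME M e E).relIndex M ≤ Nat.card (GG e E ⊓ M : AddSubgroup J)) :
    ∀ m ∈ M, ∃ m' ∈ M, ∃ x ∈ M, (∃ n : ℕ, 0 < n ∧ n • x = 0) ∧ E m = e • m' + x := by
  classical
  -- the torsion subgroup of `M`
  let X : AddSubgroup J := M ⊓ AddCommGroup.torsion J
  have hXmem : ∀ x, x ∈ X ↔ x ∈ M ∧ ∃ n : ℕ, 0 < n ∧ n • x = 0 := by
    intro x
    show x ∈ M ∧ IsOfFinAddOrder x ↔ _
    rw [isOfFinAddOrder_iff_nsmul_eq_zero]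
  have hXM : X ≤ M := inf_le_left
  have hXfin : Finite X := C2_finite_tors M hfg X hXM fun x hx => ((hXmem x).1 hx).2
  have hEX : ∀ x ∈ X, E x ∈ X := by
    intro x hx
    obtain ⟨hxM, n, hn, hnx⟩ := (hXmem x).1 hx
    exact (hXmem _).2 ⟨hEM x hxM, n, hn, by rw [← map_nsmul, hnx, map_zero]⟩
  obtain ⟨B, hBX, hBfix, hBdiv⟩ := exists_stable X hXfin E hEX e
  have hBfin : Finite B := Finite.of_injective (AddSubgroup.inclusion hBX)
    (AddSubgroup.inclusion_injective hBX)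
  have hBM : B ≤ M := hBX.trans hXM
  -- the quotient `M / ME`
  let Q := M ⧸ (ME M e E).addSubgroupOf M
  have hQcard : Nat.card Q = (ME M e E).relIndex M := (AddSubgroup.index_eq_card _).symm
  have hQfin : Finite Q := Nat.finite_of_card_ne_zero (hQcard ▸ h0)
  let φ : B →+ Q := (QuotientAddGroup.mk' ((ME M e E).addSubgroupOf M)).comp
    (AddSubgroup.inclusion hBM)
  -- the kernel of `φ` is contained in `e B`
  have hker : φ.ker ≤ (nsmulAddMonoidHom e : B →+ B).range := by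
    intro x hx
    have hx1 : AddSubgroup.inclusion hBM x ∈ (ME M e E).addSubgroupOf M :=
      (QuotientAddGroup.eq_zero_iff _).1 hx
    have hx2 : (x : J) ∈ ME M e E := hx1
    obtain ⟨-, m', hm'M, hm'⟩ := mem_ME.1 hx2
    obtain ⟨-, n, hn, hnx⟩ := (hXmem _).1 (hBX x.2)
    have hm'X : m' ∈ X := by
      refine (hXmem _).2 ⟨hm'M, n * e, Nat.mul_pos hn he, ?_⟩
      rw [mul_smul, hm', ← map_nsmul, hnx, map_zero]
    obtain ⟨b, hb, hxb⟩ := hBdiv x x.2 m' hm'X hm'.symm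
    exact ⟨⟨b, hb⟩, Subtype.ext hxb.symm⟩
  -- counting
  have c1 : Nat.card φ.range = φ.ker.index := (AddSubgroup.index_ker φ).symm
  have c2 : (nsmulAddMonoidHom e : B →+ B).range.index ≤ φ.ker.index :=
    Nat.le_of_dvd (Nat.pos_of_ne_zero AddSubgroup.index_ne_zero_of_finite)
      (AddSubgroup.index_dvd_of_le hker)
  have c3 : Nat.card (GG e E ⊓ M : AddSubgroup J) ≤
      Nat.card (nsmulAddMonoidHom e : B →+ B).ker := by
    have hmem : ∀ x : (GG e E ⊓ M : AddSubgroup J), (x : J) ∈ B := by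
      intro x
      obtain ⟨hx1, hx2⟩ := x.2
      obtain ⟨hx3, hx4⟩ := mem_GG.1 hx1
      exact hBfix x ((hXmem _).2 ⟨hx2, e, he, hx3⟩) hx4
    refine Nat.card_le_card_of_injective
      (fun x => (⟨⟨x, hmem x⟩, ?_⟩ : (nsmulAddMonoidHom e : B →+ B).ker)) ?_
    · apply Subtype.ext
      exact (mem_GG.1 x.2.1).1
    · intro x y hxy
      apply Subtype.ext
      exact congrArg (fun z : (nsmulAddMonoidHom e : B →+ B).ker => ((z : B) : J)) hxy
  have hsurj : φ.range = ⊤ := by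
    apply AddSubgroup.eq_top_of_le_card
    rw [hQcard, c1]
    exact h.trans (c3.trans ((C2_card_ker_eq_index B e).le.trans c2))
  intro m hm
  obtain ⟨b, hb⟩ : QuotientAddGroup.mk' ((ME M e E).addSubgroupOf M) ⟨m, hm⟩ ∈ φ.range := by
    rw [hsurj]; trivial
  have h1 : (-(AddSubgroup.inclusion hBM b) + ⟨m, hm⟩ : M) ∈ (ME M e E).addSubgroupOf M :=
    QuotientAddGroup.eq.1 hb
  have h2 : -(b : J) + m ∈ ME M e E := h1
  obtain ⟨-, m', hm'M, hm'⟩ := mem_ME.1 h2
  obtain ⟨hEbM, n, hn, hnb⟩ := (hXmem _).1 (hEX b (hBX b.2))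
  refine ⟨m', hm'M, E b, hEbM, ⟨n, hn, hnb⟩, ?_⟩
  rw [hm', map_add, map_neg]
  abel

end Fermat.Agent.S15.F.Abs
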