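import Fermat.Agent.S15.F.Abs.Defs

/-! # S15 / F / Abs : task S15/F-Abs-D (proof sketch: header of `Defs.lean`) -/

set_option autoImplicit false

namespace Fermat.Agent.S15.F.Abs

variable {J : Type*} [AddCommGroup J]

/-- (D1) Nakayama / Cayley-Hamilton. -/
theorem exists_poly_of_range_le {L : Type*} [AddCommGroup L] [Module.Finite ℤ L] (e : ℕ)
    (f : Module.End ℤ L) (h : ∀ x : L, ∃ y : L, f x = e • y) :
    ∃ P : Polynomial ℤ, (e : ℤ) ∣ P.eval 1 - 1 ∧ Polynomial.aeval f P = 0 := by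
  have hI : LinearMap.range f ≤ (Ideal.span {(e : ℤ)}) • (⊤ : Submodule ℤ L) := by
    rintro _ ⟨x, rfl⟩
    obtain ⟨y, hy⟩ := h x
    rw [hy, ← natCast_zsmul]
    exact Submodule.smul_mem_smul (Ideal.mem_span_singleton_self _) Submodule.mem_top
  obtain ⟨P, hmon, -, hcoeff, hP⟩ :=
    LinearMap.exists_monic_and_natDegree_eq_and_coeff_mem_pow_and_aeval_eq_zero ℤ f _ hI
  refine ⟨P, ?_, hP⟩
  rw [Polynomial.eval_eq_sum_range, Finset.sum_range_succ]
  simp only [one_pow, mul_one]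
  rw [hmon.coeff_natDegree, add_sub_cancel_right]
  apply Finset.dvd_sum
  intro i hi
  have hi' : i < P.natDegree := Finset.mem_range.mp hi
  have h2 : P.coeff i ∈ Ideal.span {(e : ℤ)} := Ideal.pow_le_self (by omega) (hcoeff i)
  exact Ideal.mem_span_singleton.mp h2

theorem D_pow_semiconj {A B : Type*} [AddCommGroup A] [AddCommGroup B] (π : A →ₗ[ℤ] B)
    (g : Module.End ℤ A) (f : Module.End ℤ B) (h : ∀ x, π (g x) = f (π x)) (n : ℕ) (x : A) :
    π ((g ^ n) x) = (f ^ n) (π x) := by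
  induction n generalizing x with
  | zero => simp
  | succ n ih => rw [pow_succ, pow_succ, Module.End.mul_apply, Module.End.mul_apply, ih, h]

theorem D_aeval_semiconj {A B : Type*} [AddCommGroup A] [AddCommGroup B] (π : A →ₗ[ℤ] B)
    (g : Module.End ℤ A) (f : Module.End ℤ B) (h : ∀ x, π (g x) = f (π x)) (P : Polynomial ℤ)
    (x : A) : π (Polynomial.aeval g P x) = Polynomial.aeval f P (π x) := by
  induction P using Polynomial.induction_on' with
  | add p q hp hq => simp only [map_add, LinearMap.add_apply, hp, hq]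
  | monomial n a =>
    simp only [Polynomial.aeval_monomial, Module.End.mul_apply, Module.algebraMap_end_apply,
      map_smul, D_pow_semiconj π g f h]

/-- (D). -/
theorem exists_poly (M : AddSubgroup J) (hfg : AddGroup.FG M) (e : ℕ) (E : J →+ J)
    (hEM : ∀ m ∈ M, E m ∈ M)
    (h : ∀ m ∈ M, ∃ m' ∈ M, ∃ x ∈ M, (∃ n : ℕ, 0 < n ∧ n • x = 0) ∧ E m = e • m' + x) :
    ∃ P : Polynomial ℤ, (e : ℤ) ∣ P.eval 1 - 1 ∧
      ∀ z ∈ M, ∃ n : ℕ, 0 < n ∧ n • (Polynomial.aeval E.toIntLinearMap P) z = 0 := by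
  have hfin : Module.Finite ℤ M := Module.Finite.iff_addGroup_fg.mpr hfg
  let Ms : Submodule ℤ J := AddSubgroup.toIntSubmodule M
  have hfin' : Module.Finite ℤ Ms := hfin
  let g : Module.End ℤ Ms := E.toIntLinearMap.restrict (p := Ms) (q := Ms) hEM
  let T : Submodule ℤ Ms := Submodule.torsion ℤ Ms
  have hT : T ≤ T.comap g := by
    intro x hx
    obtain ⟨a, ha⟩ := (Submodule.mem_torsion_iff x).mp hx
    refine (Submodule.mem_torsion_iff _).mpr ⟨a, ?_⟩
    have h1 : (a : ℤ) • g x = g ((a : ℤ) • x) := (map_smul g (a : ℤ) x).symm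
    have h2 : (a : ℤ) • x = 0 := ha
    show (a : ℤ) • g x = 0
    rw [h1, h2, map_zero]
  let f : Module.End ℤ (Ms ⧸ T) := T.mapQ T g hT
  have hf : ∀ x : Ms ⧸ T, ∃ y : Ms ⧸ T, f x = e • y := by
    intro x
    obtain ⟨m, rfl⟩ := T.mkQ_surjective x
    obtain ⟨m', hm', t, ht, ⟨n, hn, hnt⟩, hE⟩ := h m.1 m.2
    refine ⟨T.mkQ ⟨m', hm'⟩, ?_⟩
    have h1 : g m = e • (⟨m', hm'⟩ : Ms) + ⟨t, ht⟩ := Subtype.ext hE
    have h2 : (⟨t, ht⟩ : Ms) ∈ T := by
      refine (Submodule.mem_torsion_iff _).mpr ⟨⟨(n : ℤ), ?_⟩, ?_⟩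
      · exact mem_nonZeroDivisors_of_ne_zero (by exact_mod_cast hn.ne')
      · apply Subtype.ext
        show (n : ℤ) • t = 0
        rw [natCast_zsmul, hnt]
    have h3 : f (T.mkQ m) = T.mkQ (g m) := rfl
    have h4 : T.mkQ ⟨t, ht⟩ = 0 := (Submodule.Quotient.mk_eq_zero T).mpr h2
    rw [h3, h1, map_add, map_nsmul, h4, add_zero]
  obtain ⟨P, hP1, hP⟩ := exists_poly_of_range_le e f hf
  refine ⟨P, hP1, fun z hz => ?_⟩
  have h1 := D_aeval_semiconj T.mkQ g f (fun _ => rfl) P ⟨z, hz⟩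
  rw [hP, LinearMap.zero_apply] at h1
  have h2 : Polynomial.aeval g P ⟨z, hz⟩ ∈ T := (Submodule.Quotient.mk_eq_zero T).mp h1
  obtain ⟨a, ha⟩ := (Submodule.mem_torsion_iff _).mp h2
  have h3 := D_aeval_semiconj Ms.subtype g E.toIntLinearMap (fun _ => rfl) P ⟨z, hz⟩
  have h4 : (a : ℤ) • (Polynomial.aeval E.toIntLinearMap P) z = 0 := by
    have := congrArg Ms.subtype ha
    rw [map_zero] at this
    rw [← this]
    show _ = Ms.subtype ((a : ℤ) • _)
    rw [map_smul, h3]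
    rfl
  have ha0 : (a : ℤ) ≠ 0 := nonZeroDivisors.ne_zero a.2
  refine ⟨(a : ℤ).natAbs, Int.natAbs_pos.mpr ha0, ?_⟩
  rcases Int.natAbs_eq (a : ℤ) with h5 | h5
  · rw [← natCast_zsmul, ← h5, h4]
  · have h6 : (((a : ℤ).natAbs : ℕ) : ℤ) = -(a : ℤ) := by omega
    rw [← natCast_zsmul, h6, neg_smul, h4, neg_zero]

end Fermat.Agent.S15.F.Abs
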