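import Mathlib

/-!
# S15 / F / Abs : definitions + proof plan of the abstract descent count (Mathlib only)

STREAMLINED PROOF of `Abs.main` (only inequalities; idempotency of `E` and primality of `e` are NOT needed, only `0 < e`).
`M = J^Γ`, `M2 = e⁻¹ M`, `KK = {y' ∈ M2 : E y' ∈ M}`, `ME = {m ∈ M : E m ∈ e M}`, `GG = {x : e x = 0, E x = x}`.

(B1) `y' ↦ (σ ↦ E (σ y' - y') = σ (E y') - E y')` is a homomorphism on `M2` with kernel `KK` and values in `S`: `[M2 : KK] ≤ #S`, `≠ 0`.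
(B2) `LL := {y' ∈ M2 : e y' ∈ ME}`.  `KK ≤ LL ≤ M2`, `[M2 : LL] = [M : ME]` (`e : M2 → M` onto), `GG ≤ LL`, `GG ⊓ KK = GG ⊓ M`, so
     `[M2 : KK] = [M2 : LL] [LL : KK] ≥ [M : ME] [GG : GG ⊓ M]`, i.e. `[M : ME] * #GG ≤ [M2 : KK] * #(GG ⊓ M)`.
     With `[M2 : KK] ≤ #S ≤ #GG`:  `[M : ME] ≤ #(GG ⊓ M)`.
(C1) `X` finite, `E X ⊆ X`, `B := E^n X` the stable image: `E : B → B` bijective, `E (e B) = e B`; fixed points of `E` in `X` are in `B`;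
     `x ∈ B`, `E x = e w`, `w ∈ X` ⟹ `E^(n+1) x = e E^n w ∈ e B = E^(n+1) (e B)` ⟹ `x ∈ e B`.
(C2) `X := M_tors` (finite).  `GG ⊓ M ≤ B[e]`, `#B[e] = [B : e B]`, `B ⊓ ME ≤ e B` (if `E x = e m` with `x` torsion then `m` is torsion), so
     `[M : ME] ≥ [B : B ⊓ ME] ≥ [B : e B] = #B[e] ≥ #(GG ⊓ M) ≥ [M : ME]`: `B → M / ME` is onto, `M = B + ME`, `E M ⊆ X + e M`.
(D)  `Λ := M / X` is a f.g. `ℤ`-module, `E Λ ⊆ e Λ`:
     `LinearMap.exists_monic_and_coeff_mem_pow_and_aeval_eq_zero_of_range_le_smul` gives `P` monic, lower coefficients in `(e)`, `P(E) Λ = 0`.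
-/

set_option autoImplicit false

namespace Fermat.Agent.S15.F.Abs

variable {J : Type*} [AddCommGroup J]

/-- `e⁻¹ M`. -/
def M2 (M : AddSubgroup J) (e : ℕ) : AddSubgroup J := M.comap (nsmulAddMonoidHom e)

/-- `{y' ∈ e⁻¹ M : E y' ∈ M}`. -/
def KK (M : AddSubgroup J) (e : ℕ) (E : J →+ J) : AddSubgroup J := M2 M e ⊓ M.comap E

/-- `{m ∈ M : E m ∈ e M}`. -/
def ME (M : AddSubgroup J) (e : ℕ) (E : J →+ J) : AddSubgroup J :=
  M ⊓ (M.map (nsmulAddMonoidHom e)).comap E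

/-- `{x : e x = 0, E x = x}`. -/
def GG (e : ℕ) (E : J →+ J) : AddSubgroup J :=
  (nsmulAddMonoidHom e : J →+ J).ker ⊓ (E - AddMonoidHom.id J).ker

theorem mem_M2 {M : AddSubgroup J} {e : ℕ} {y : J} : y ∈ M2 M e ↔ e • y ∈ M := Iff.rfl

theorem mem_KK {M : AddSubgroup J} {e : ℕ} {E : J →+ J} {y : J} :
    y ∈ KK M e E ↔ e • y ∈ M ∧ E y ∈ M := Iff.rfl

theorem mem_ME {M : AddSubgroup J} {e : ℕ} {E : J →+ J} {m : J} :
    m ∈ ME M e E ↔ m ∈ M ∧ ∃ m' ∈ M, e • m' = E m := Iff.rfl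

theorem mem_GG {e : ℕ} {E : J →+ J} {x : J} : x ∈ GG e E ↔ e • x = 0 ∧ E x = x := by
  simp [GG, AddSubgroup.mem_inf, AddMonoidHom.mem_ker, sub_eq_zero]

end Fermat.Agent.S15.F.Abs
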