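import Fermat.Agent.S15.F.Abs.B1
import Fermat.Agent.S15.F.Abs.B2
import Fermat.Agent.S15.F.Abs.C2
import Fermat.Agent.S15.F.Abs.D

/-!
# S15 / F / Abs : the abstract descent count (Mathlib only)

`Γ` a group acting on an abelian group `J`; `e` a prime; `E : J →+ J` commutes with `Γ`.
`V = J[e]` finite, `J` is `e`-divisible, `M = J^Γ` finitely generated, `G = {x ∈ V : E x = x}`.
`Z = {σ ↦ E (σ y' - y') : e y' ∈ M}`.  If `#Z ≤ #G` then `E M ⊆ e M + M_tors`, hence (Nakayama / Cayley-Hamilton on `Λ = M / M_tors`)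
there is a monic `P ≡ X ^ ρ` mod `e` with `P(E) M ⊆ M_tors`; `P(1) ≡ 1` mod `e`.
Proof: see `Defs.lean` (B1), (B2), (C1), (C2), (D).
-/

set_option autoImplicit false

namespace Fermat.Agent.S15.F.Abs

theorem main {Γ J : Type*} [Group Γ] [AddCommGroup J] [DistribMulAction Γ J] (e : ℕ) (he : e.Prime)
    (E : J →+ J) (hE : ∀ (σ : Γ) (x : J), E (σ • x) = σ • E x)
    (hdiv : ∀ y : J, ∃ y' : J, e • y' = y)
    (hfin : {x : J | e • x = 0}.Finite)
    (hfg : AddGroup.FG ↥(FixedPoints.addSubgroup Γ J))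
    (hidem : ∀ x : J, e • x = 0 → E (E x) = E x)
    (S : Set (Γ → J)) (hS : S.Finite) (hcard : S.ncard ≤ {x : J | e • x = 0 ∧ E x = x}.ncard)
    (hmem : ∀ y' : J, (∀ σ : Γ, σ • (e • y') = e • y') → (fun σ : Γ => E (σ • y' - y')) ∈ S) :
    ∃ P : Polynomial ℤ, (e : ℤ) ∣ P.eval 1 - 1 ∧
      ∀ z : J, (∀ σ : Γ, σ • z = z) →
        ∃ n : ℕ, 0 < n ∧ n • (Polynomial.aeval E.toIntLinearMap P) z = 0 := by
  set M : AddSubgroup J := FixedPoints.addSubgroup Γ J with hM
  have hEM : ∀ m ∈ M, E m ∈ M := by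
    intro m hm σ
    have : σ • m = m := hm σ
    rw [← hE, this]
  have hGset : ((GG e E : AddSubgroup J) : Set J) = {x : J | e • x = 0 ∧ E x = x} := by
    ext x
    exact mem_GG
  have hGfin : Finite (GG e E) := by
    have : ((GG e E : AddSubgroup J) : Set J).Finite := by
      rw [hGset]
      exact hfin.subset fun x hx => hx.1
    exact this.to_subtype
  have hGcard : Nat.card (GG e E) = {x : J | e • x = 0 ∧ E x = x}.ncard := by
    rw [← hGset]
    rfl
  obtain ⟨h1, h2⟩ := relIndex_KK_le e E hE S hS hmem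
  obtain ⟨h3, h4⟩ := relIndex_ME_mul_le M e E hdiv hGfin h1
  have hGpos : 0 < Nat.card (GG e E) := Nat.card_pos
  have h5 : (ME M e E).relIndex M ≤ Nat.card (GG e E ⊓ M : AddSubgroup J) := by
    have h6 : (ME M e E).relIndex M * Nat.card (GG e E)
        ≤ Nat.card (GG e E ⊓ M : AddSubgroup J) * Nat.card (GG e E) := by
      calc (ME M e E).relIndex M * Nat.card (GG e E)
          ≤ (KK M e E).relIndex (M2 M e) * Nat.card (GG e E ⊓ M : AddSubgroup J) := h4
        _ ≤ Nat.card (GG e E) * Nat.card (GG e E ⊓ M : AddSubgroup J) :=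
            Nat.mul_le_mul_right _ (h2.trans (hcard.trans hGcard.ge))
        _ = _ := Nat.mul_comm _ _
    exact Nat.le_of_mul_le_mul_right h6 hGpos
  have h7 := map_mem_of_relIndex_le M hfg e he.pos E hEM h3 h5
  obtain ⟨P, hP1, hP2⟩ := exists_poly M hfg e E hEM h7
  exact ⟨P, hP1, fun z hz => hP2 z hz⟩

end Fermat.Agent.S15.F.Abs
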